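import Mathlib.Analysis.Complex.Norm
import Mathlib.Tactic

/-!
# The Descartes circle theorem and Apollonian packings

A circle is a centre with a signed curvature; two are tangent when the distance of the centres is
the absolute value of the sum of the signed radii. The Gram determinant of four plane points
vanishes, which is Descartes's equation.
-/

set_option autoImplicit false

open Finset

namespace FA.Apollonian

/-- Oriented tangency of two circles. -/
def Tangent (z w : ℂ) (a b : ℝ) : Prop := dist z w = |1 / a + 1 / b|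

theorem Tangent.sq {z w : ℂ} {a b : ℝ} (h : Tangent z w a b) :
    (z.re - w.re) ^ 2 + (z.im - w.im) ^ 2 = (1 / a + 1 / b) ^ 2 := by
  rw [← sq_abs (1 / a + 1 / b), ← h, Complex.dist_eq, Complex.sq_norm, Complex.normSq_apply,
    Complex.sub_re, Complex.sub_im]
  ring

theorem Tangent.symm {z w : ℂ} {a b : ℝ} (h : Tangent z w a b) : Tangent w z b a := by
  rw [Tangent, dist_comm, add_comm]
  exact h

theorem Tangent.sphere_inter {z w : ℂ} {a b : ℝ} (h : Tangent z w a b) (hab : 1 / a + 1 / b ≠ 0) :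
    Metric.sphere z |1 / a| ∩ Metric.sphere w |1 / b| =
      {z + (1 / a / (1 / a + 1 / b) : ℝ) • (w - z)} := by
  have h' := h.sq
  set s := 1 / a
  set t := 1 / b
  have hsph : ∀ (x c : ℂ) (r : ℝ),
      x ∈ Metric.sphere c |r| ↔ (x.re - c.re) ^ 2 + (x.im - c.im) ^ 2 = r ^ 2 := by
    intro x c r
    rw [Metric.mem_sphere, ← sq_eq_sq₀ dist_nonneg (abs_nonneg r), sq_abs, Complex.dist_eq,
      Complex.sq_norm, Complex.normSq_apply, Complex.sub_re, Complex.sub_im, ← pow_two, ← pow_two]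
  ext x
  rw [Set.mem_inter_iff, hsph, hsph, Set.mem_singleton_iff, Complex.ext_iff]
  simp only [Complex.add_re, Complex.add_im, Complex.smul_re, Complex.smul_im, Complex.sub_re,
    Complex.sub_im, smul_eq_mul]
  set l := s / (s + t)
  have hl : l * (s + t) = s := div_mul_cancel₀ s hab
  constructor
  · rintro ⟨h1, h2⟩
    have e : (x.re - z.re - l * (w.re - z.re)) ^ 2 + (x.im - z.im - l * (w.im - z.im)) ^ 2 = 0 := by
      linear_combination (1 - l) * h1 + l * h2 + (l ^ 2 - l) * h' + (l * (s + t) - s) * hl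
    obtain ⟨e1, e2⟩ := (add_eq_zero_iff_of_nonneg (sq_nonneg _) (sq_nonneg _)).1 e
    rw [sq_eq_zero_iff] at e1 e2
    exact ⟨by linear_combination e1, by linear_combination e2⟩
  · rintro ⟨e1, e2⟩
    rw [e1, e2]
    exact ⟨by linear_combination l ^ 2 * h' + (l * (s + t) + s) * hl,
      by linear_combination (1 - l) ^ 2 * h' + ((l - 1) * (s + t) - t) * hl⟩

/-- Descartes's equation. -/
def Descartes {R : Type*} [CommRing R] (k : Fin 4 → R) : Prop :=
  (∑ i, k i) ^ 2 = 2 * ∑ i, k i ^ 2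

/-- Four circles, each tangent to the others. -/
def MutuallyTangent (z : Fin 4 → ℂ) (k : Fin 4 → ℝ) : Prop :=
  (∀ i, k i ≠ 0) ∧ ∀ i j, i ≠ j → Tangent (z i) (z j) (k i) (k j)

theorem descartes {z : Fin 4 → ℂ} {k : Fin 4 → ℝ} (h : MutuallyTangent z k) : Descartes k := by
  obtain ⟨hk, hT⟩ := h
  have h01 := (hT 0 1 (by decide)).sq
  have h02 := (hT 0 2 (by decide)).sq
  have h03 := (hT 0 3 (by decide)).sq
  have h12 := (hT 1 2 (by decide)).sq
  have h13 := (hT 1 3 (by decide)).sq
  have h23 := (hT 2 3 (by decide)).sq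
  set x1 := (z 1).re - (z 0).re with hx1
  set y1 := (z 1).im - (z 0).im with hy1
  set x2 := (z 2).re - (z 0).re with hx2
  set y2 := (z 2).im - (z 0).im with hy2
  set x3 := (z 3).re - (z 0).re with hx3
  set y3 := (z 3).im - (z 0).im with hy3
  set a := k 0 with ha'
  set b := k 1 with hb'
  set c := k 2 with hc'
  set d := k 3 with hd'
  have g11 : x1 * x1 + y1 * y1 = (1 / a + 1 / b) ^ 2 := by rw [hx1, hy1]; linear_combination h01
  have g22 : x2 * x2 + y2 * y2 = (1 / a + 1 / c) ^ 2 := by rw [hx2, hy2]; linear_combination h02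
  have g33 : x3 * x3 + y3 * y3 = (1 / a + 1 / d) ^ 2 := by rw [hx3, hy3]; linear_combination h03
  have g12 : x1 * x2 + y1 * y2 = (1 / a) ^ 2 + 1 / a * (1 / b) + 1 / a * (1 / c) -
      1 / b * (1 / c) := by
    rw [hx1, hy1, hx2, hy2]; linear_combination (h01 + h02 - h12) / 2
  have g13 : x1 * x3 + y1 * y3 = (1 / a) ^ 2 + 1 / a * (1 / b) + 1 / a * (1 / d) -
      1 / b * (1 / d) := by
    rw [hx1, hy1, hx3, hy3]; linear_combination (h01 + h03 - h13) / 2
  have g23 : x2 * x3 + y2 * y3 = (1 / a) ^ 2 + 1 / a * (1 / c) + 1 / a * (1 / d) -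
      1 / c * (1 / d) := by
    rw [hx2, hy2, hx3, hy3]; linear_combination (h02 + h03 - h23) / 2
  have hdet : (x1 * x1 + y1 * y1) * (x2 * x2 + y2 * y2) * (x3 * x3 + y3 * y3) +
      2 * (x1 * x2 + y1 * y2) * (x1 * x3 + y1 * y3) * (x2 * x3 + y2 * y3) -
      (x1 * x1 + y1 * y1) * (x2 * x3 + y2 * y3) ^ 2 -
      (x2 * x2 + y2 * y2) * (x1 * x3 + y1 * y3) ^ 2 -
      (x3 * x3 + y3 * y3) * (x1 * x2 + y1 * y2) ^ 2 = 0 := by ring
  rw [g11, g22, g33, g12, g13, g23] at hdet
  have ha : a ≠ 0 := hk 0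
  have hb : b ≠ 0 := hk 1
  have hc : c ≠ 0 := hk 2
  have hd : d ≠ 0 := hk 3
  field_simp at hdet
  rw [Descartes, Fin.sum_univ_four, Fin.sum_univ_four, ← ha', ← hb', ← hc', ← hd']
  refine mul_left_cancel₀ (show (4 : ℝ) * a ^ 4 ≠ 0 by positivity) ?_
  linear_combination hdet

theorem sum_update {R : Type*} [CommRing R] (f : Fin 4 → R) (i : Fin 4) (v : R) :
    ∑ j, Function.update f i v j = ∑ j, f j - f i + v := by
  rw [sum_update_of_mem (mem_univ i), ← sum_sdiff (singleton_subset_iff.2 (mem_univ i)),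
    sum_singleton]
  ring

theorem sum_update_sq {R : Type*} [CommRing R] (f : Fin 4 → R) (i : Fin 4) (v : R) :
    ∑ j, Function.update f i v j ^ 2 = ∑ j, f j ^ 2 - f i ^ 2 + v ^ 2 := by
  rw [← sum_update (fun j => f j ^ 2)]
  exact sum_congr rfl fun j _ => by rcases eq_or_ne j i with rfl | h <;> simp [*]

theorem root_cases {R : Type*} [CommRing R] [IsDomain R] {k : Fin 4 → R} (hk : Descartes k)
    {i : Fin 4} {v : R} (hv : Descartes (Function.update k i v)) :
    v = k i ∨ v = 2 * ∑ j, k j - 3 * k i := by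
  rw [Descartes, sum_update, sum_update_sq] at hv
  have h : (v - k i) * (v - (2 * ∑ j, k j - 3 * k i)) = 0 := by
    rw [Descartes] at hk
    linear_combination hk - hv
  exact (mul_eq_zero.1 h).imp sub_eq_zero.1 sub_eq_zero.1

/-- One circle is replaced by a circle tangent to the other three. -/
def Step (P Q : (Fin 4 → ℂ) × (Fin 4 → ℝ)) : Prop :=
  ∃ i w m, m ≠ 0 ∧ (∀ j, j ≠ i → Tangent w (P.1 j) m (P.2 j)) ∧
    Q = (Function.update P.1 i w, Function.update P.2 i m)

theorem Step.preserves {P Q : (Fin 4 → ℂ) × (Fin 4 → ℝ)} (h : Step P Q)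
    (hP : MutuallyTangent P.1 P.2) : MutuallyTangent Q.1 Q.2 := by
  obtain ⟨i, w, m, hm, ht, rfl⟩ := h
  refine ⟨fun j => ?_, fun j l hjl => ?_⟩
  · rcases eq_or_ne j i with rfl | hj <;> simp [*, hP.1 j]
  · rcases eq_or_ne j i with rfl | hj
    · simpa [hjl.symm] using ht l hjl.symm
    · rcases eq_or_ne l i with rfl | hl
      · simpa [hj] using (ht j hj).symm
      · simpa [hj, hl] using hP.2 j l hjl

theorem integral_packing {P Q : (Fin 4 → ℂ) × (Fin 4 → ℝ)} (hP : MutuallyTangent P.1 P.2)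
    (hint : ∀ i, ∃ n : ℤ, P.2 i = n) (h : Relation.ReflTransGen Step P Q) :
    MutuallyTangent Q.1 Q.2 ∧ ∀ i, ∃ n : ℤ, Q.2 i = n := by
  induction h with
  | refl => exact ⟨hP, hint⟩
  | tail _ hstep ih =>
    obtain ⟨hR, hI⟩ := ih
    refine ⟨hstep.preserves hR, ?_⟩
    have hd' := descartes (hstep.preserves hR)
    obtain ⟨i, w, m, -, -, rfl⟩ := hstep
    intro j
    rcases eq_or_ne j i with rfl | hj
    · choose f hf using hI
      rcases root_cases (descartes hR) hd' with e | e
      · exact ⟨f j, by simp [e, hf]⟩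
      · exact ⟨2 * ∑ l, f l - 3 * f j, by simp [e, hf]⟩
    · simpa [hj] using hI j

theorem norm_combination {za zb zc zd : ℂ} {a b c d : ℝ} (ha : a ≠ 0) (hb : b ≠ 0) (hc : c ≠ 0)
    (hd : d ≠ 0) (hm : 2 * (a + b + c) - d ≠ 0) (hab : Tangent za zb a b) (hac : Tangent za zc a c)
    (had : Tangent za zd a d) (hbc : Tangent zb zc b c) (hbd : Tangent zb zd b d)
    (hcd : Tangent zc zd c d) :
    Tangent ((2 * (a * za + b * zb + c * zc) - d * zd) / ((2 * (a + b + c) - d : ℝ) : ℂ)) za
      (2 * (a + b + c) - d) a := by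
  set m := 2 * (a + b + c) - d with hmdef
  set V : ℂ := 2 * (b : ℂ) * (zb - za) + 2 * (c : ℂ) * (zc - za) - (d : ℂ) * (zd - za) with hV
  have hmC : (m : ℂ) ≠ 0 := Complex.ofReal_ne_zero.2 hm
  have e : (2 * (a * za + b * zb + c * zc) - d * zd) / (m : ℂ) - za = V / (m : ℂ) := by
    rw [div_sub' hmC, hV, hmdef]
    congr 1
    push_cast
    ring
  have key : a ^ 2 * (V.re * V.re + V.im * V.im) = (m + a) ^ 2 := by
    calc a ^ 2 * (V.re * V.re + V.im * V.im) =
          a ^ 2 * ((4 * b ^ 2 + 4 * b * c - 2 * b * d) * (1 / a + 1 / b) ^ 2 +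
            (4 * c ^ 2 + 4 * b * c - 2 * c * d) * (1 / a + 1 / c) ^ 2 +
            (d ^ 2 - 2 * b * d - 2 * c * d) * (1 / a + 1 / d) ^ 2 -
            4 * b * c * (1 / b + 1 / c) ^ 2 + 2 * b * d * (1 / b + 1 / d) ^ 2 +
            2 * c * d * (1 / c + 1 / d) ^ 2) := by
          simp only [hV, Complex.sub_re, Complex.sub_im, Complex.add_re, Complex.add_im,
            Complex.mul_re, Complex.mul_im, Complex.ofReal_re, Complex.ofReal_im,
            Complex.re_ofNat, Complex.im_ofNat, zero_mul, mul_zero, sub_zero, add_zero]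
          linear_combination a ^ 2 * ((4 * b ^ 2 + 4 * b * c - 2 * b * d) * hab.sq +
            (4 * c ^ 2 + 4 * b * c - 2 * c * d) * hac.sq +
            (d ^ 2 - 2 * b * d - 2 * c * d) * had.sq -
            4 * b * c * hbc.sq + 2 * b * d * hbd.sq + 2 * c * d * hcd.sq)
      _ = (m + a) ^ 2 := by
        rw [hmdef]
        field_simp
        ring
  rw [Tangent, ← sq_eq_sq₀ dist_nonneg (abs_nonneg _), sq_abs, Complex.dist_eq, e, norm_div,
    Complex.norm_real, Real.norm_eq_abs, div_pow, sq_abs, Complex.sq_norm, Complex.normSq_apply]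
  field_simp
  linear_combination key

theorem exists_others : ∀ i j : Fin 4, i ≠ j → ∃ p q : Fin 4, [i, j, p, q].Nodup ∧
    ({i, j, p, q} : Finset (Fin 4)) = univ := by
  decide

theorem tangent_reflection {z : Fin 4 → ℂ} {k : Fin 4 → ℝ} (h : MutuallyTangent z k) (i : Fin 4)
    (hm : 2 * ∑ j, k j - 3 * k i ≠ 0) : ∀ j, j ≠ i →
      Tangent ((2 * ∑ l, (k l : ℂ) * z l - 3 * (k i * z i)) /
        ((2 * ∑ l, k l - 3 * k i : ℝ) : ℂ)) (z j) (2 * ∑ l, k l - 3 * k i) (k j) := by
  intro j hj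
  obtain ⟨p, q, hne, hsum⟩ := exists_others i j (Ne.symm hj)
  simp only [List.nodup_cons, List.mem_cons, List.not_mem_nil, or_false, not_or] at hne
  obtain ⟨⟨hij, hip, hiq⟩, ⟨hjp, hjq⟩, hpq, -⟩ := hne
  have hc := norm_combination (h.1 j) (h.1 p) (h.1 q) (h.1 i) (za := z j) (zb := z p) (zc := z q)
    (zd := z i)
  have hsum' : ∀ {M : Type} [AddCommMonoid M] (f : Fin 4 → M),
      ∑ l, f l = f i + (f j + (f p + f q)) := by
    intro M _ f
    rw [← hsum, sum_insert (by simp [hij, hip, hiq]), sum_insert (by simp [hjp, hjq]),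
      sum_insert (by simp [hpq]), sum_singleton]
  have e : 2 * ∑ l, k l - 3 * k i = 2 * (k j + k p + k q) - k i := by rw [hsum']; ring
  rw [e] at hm ⊢
  have e' : 2 * ∑ l, (k l : ℂ) * z l - 3 * (k i * z i) =
      2 * (k j * z j + k p * z p + k q * z q) - k i * z i := by rw [hsum']; ring
  rw [e']
  exact hc hm (h.2 j p hjp) (h.2 j q hjq) (h.2 j i hj) (h.2 p q hpq) (h.2 p i (Ne.symm hip))
    (h.2 q i (Ne.symm hiq))

theorem exists_step {z : Fin 4 → ℂ} {k : Fin 4 → ℝ} (h : MutuallyTangent z k) (i : Fin 4)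
    (hm : 2 * ∑ j, k j - 3 * k i ≠ 0) :
    ∃ w, (∀ j, j ≠ i → Tangent w (z j) (2 * ∑ l, k l - 3 * k i) (k j)) :=
  ⟨_, tangent_reflection h i hm⟩

/-- An integral quadruple changes in one place. -/
def Move (p q : Fin 4 → ℤ) : Prop :=
  ∃ i, q = Function.update p i (2 * ∑ j, p j - 3 * p i)

theorem Move.preserves {p q : Fin 4 → ℤ} (h : Move p q) (hp : Descartes p) (hs : 0 < ∑ i, p i) :
    Descartes q ∧ 0 < ∑ i, q i := by
  obtain ⟨i, rfl⟩ := h
  rw [Descartes] at hp
  refine ⟨?_, ?_⟩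
  · rw [Descartes, sum_update, sum_update_sq]
    linear_combination hp
  · rw [sum_update]
    have h2 : 2 * p i ^ 2 ≤ (∑ j, p j) ^ 2 := by
      rw [hp]
      gcongr
      exact single_le_sum (f := fun j => p j ^ 2) (fun j _ => sq_nonneg (p j)) (mem_univ i)
    nlinarith

theorem exists_root_quadruple {p : Fin 4 → ℤ} (hp : Descartes p) (hs : 0 < ∑ i, p i) :
    ∃ q, Relation.ReflTransGen Move p q ∧ Descartes q ∧ (∀ i, 2 * q i ≤ ∑ j, q j) ∧
      (∃ i, q i ≤ 0) ∧ ∀ i j, i ≠ j → 0 ≤ q i ∨ 0 ≤ q j := by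
  induction hn : (∑ i, p i).toNat using Nat.strong_induction_on generalizing p with
  | _ n ih =>
    subst hn
    by_cases hmin : ∀ i, 2 * p i ≤ ∑ j, p j
    · refine ⟨p, .refl, hp, hmin, ?_, ?_⟩
      · by_contra hne
        push Not at hne
        have hz : ∑ j, p j * ((∑ l, p l) - 2 * p j) = 0 := by
          rw [Descartes] at hp
          have : ∀ j, p j * ((∑ l, p l) - 2 * p j) = (∑ l, p l) * p j - 2 * p j ^ 2 := fun j => by
            ring
          simp_rw [this]
          rw [sum_sub_distrib, ← mul_sum, ← mul_sum]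
          linear_combination hp
        have hall : ∀ j, (∑ l, p l) = 2 * p j := fun j => by
          have := (sum_eq_zero_iff_of_nonneg
            (fun l _ => mul_nonneg (hne l).le (sub_nonneg.2 (hmin l)))).1 hz j (mem_univ j)
          rcases mul_eq_zero.1 this with h | h
          · exact absurd h (hne j).ne'
          · linarith
        have := hall 0
        have := hall 1
        have := hall 2
        have := hall 3
        simp only [Fin.sum_univ_four] at *
        linarith
      · intro i j hij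
        by_contra hneg
        push Not at hneg
        obtain ⟨a, b, hne, hsum⟩ := exists_others i j hij
        simp only [List.nodup_cons, List.mem_cons, List.not_mem_nil, or_false, not_or] at hne
        obtain ⟨⟨-, hia, hib⟩, ⟨hja, hjb⟩, hab, -⟩ := hne
        have hsum' : ∀ f : Fin 4 → ℤ, ∑ l, f l = f i + (f j + (f a + f b)) := fun f => by
          rw [← hsum, sum_insert (by simp [hij, hia, hib]), sum_insert (by simp [hja, hjb]),
            sum_insert (by simp [hab]), sum_singleton]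
        rw [Descartes, hsum', hsum'] at hp
        rw [hsum'] at hs
        nlinarith [sq_nonneg (p i - p j), sq_nonneg (p a - p b)]
    · push Not at hmin
      obtain ⟨i, hi⟩ := hmin
      have hmove : Move p (Function.update p i (2 * ∑ j, p j - 3 * p i)) := ⟨i, rfl⟩
      obtain ⟨hd, hpos⟩ := hmove.preserves hp hs
      obtain ⟨q, hq, rest⟩ := ih _ (by rw [sum_update] at hpos ⊢; omega) hd hpos rfl
      exact ⟨q, .head hmove hq, rest⟩

theorem tangent_example :
    MutuallyTangent ![0, ⟨1 / 2, 0⟩, ⟨-1 / 2, 0⟩, ⟨0, 2 / 3⟩] ![-1, 2, 2, 3] := by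
  refine ⟨fun i => by fin_cases i <;> norm_num, fun i j hij => ?_⟩
  rw [Tangent, ← sq_eq_sq₀ dist_nonneg (abs_nonneg _), sq_abs, Complex.dist_eq, Complex.sq_norm,
    Complex.normSq_apply, Complex.sub_re, Complex.sub_im]
  fin_cases i <;> fin_cases j <;> first | exact absurd rfl hij | norm_num

theorem descartes_external {z : Fin 4 → ℂ} {r : Fin 4 → ℝ} (hr : ∀ i, 0 < r i)
    (h : ∀ i j, i ≠ j → dist (z i) (z j) = r i + r j) : Descartes fun i => 1 / r i := by
  refine descartes (z := z) ⟨fun i => one_div_ne_zero (hr i).ne', fun i j hij => ?_⟩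
  rw [Tangent, h i j hij, one_div_one_div, one_div_one_div,
    abs_of_pos (add_pos (hr i) (hr j))]

end FA.Apollonian
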